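/-
S43 (route TWX), block GWS: Taylor-Wiles primes with a STRICT local condition at the scalar primes.
`tw_contract_slack` = `S56.B.tw_contract` with slack;  `strictContract` = the strict condition at a prime `v` with `r|D_v` scalar
(slack `3`).
-/
import Fermat.Agent.S43.GWS.Slack
import Fermat.Agent.S56.B.Main

set_option autoImplicit false

open Matrix Module ExtCitation Polynomial

noncomputable section

namespace Fermat.Agent.S43.GWS

open Fermat.Agent.S53 (G M2)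
open Fermat.Agent.S56
open Fermat.Agent.S56.B
open Fermat.Agent.S56.C (ad rm IsCoc IsCob liftMat)
open Fermat.Agent.PT

variable {k : Type} [Field k]

/-- Local contract at `v` with slack: a subspace `Lv` of `H¹(D_v, ad⁰)` with
`dim Lv + s [k : F_p] ≤ h⁰(D_v, ad⁰) + e [k : F_p]` containing the classes of all cocycles whose inhomogeneous function
satisfies `Pr`. -/
def LocalContractS (p : ℕ) [Fact p.Prime] [Algebra (ZMod p) k] (r : G →* GL (Fin 2) k)
    (v : Nat.Primes) (e s : ℕ) (Pr : (G → M2 k) → Prop) : Prop :=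
  ∃ Lv : Submodule (ZMod p) (H1 Lall (⊤ ⊓ Dl v) (adFp p r)),
    Module.Finite (ZMod p) Lv ∧
    finrank (ZMod p) Lv + s * finrank (ZMod p) k ≤
      finrank (ZMod p) (invOf (Dl v) (adFp p r)) + e * finrank (ZMod p) k ∧
    ∀ z : Z1 Lall (⊤ ⊓ Dl v) (adFp p r), Pr (inhOf z.1) → H1.mk Lall (⊤ ⊓ Dl v) (adFp p r) z ∈ Lv

theorem LocalContractS.of_contract {p : ℕ} [Fact p.Prime] [Algebra (ZMod p) k]
    {r : G →* GL (Fin 2) k} {v : Nat.Primes} {e : ℕ} {Pr : (G → M2 k) → Prop}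
    (h : LocalContract p r v e Pr) : LocalContractS p r v e 0 Pr := by
  obtain ⟨Lv, h1, h2, h3⟩ := h
  exact ⟨Lv, h1, by simpa using h2, h3⟩

theorem finrank_Ad0 : finrank k (Ad0 k) = 3 := by
  have hne : (Matrix.traceLinearMap (Fin 2) k k) ≠ 0 := by
    intro h
    have := congrArg (fun f => f (Matrix.single 0 0 1)) h
    simp at this
  have := Module.Dual.finrank_ker_add_one_of_ne_zero (f := Matrix.traceLinearMap (Fin 2) k k) hne
  rw [Module.finrank_matrix] at this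
  simp only [Fintype.card_fin, Module.finrank_self] at this
  have h2 : finrank k (Ad0 k) + 1 = 4 := this
  omega

theorem finrank_Ad0_Fp [Finite k] (p : ℕ) [Fact p.Prime] [Algebra (ZMod p) k] :
    finrank (ZMod p) (Ad0 k) = 3 * finrank (ZMod p) k := by
  rw [← Module.finrank_mul_finrank (ZMod p) k (Ad0 k), finrank_Ad0, mul_comm]

/-- The STRICT condition at a prime `v` such that `r|D_v` is scalar: slack `3`. -/
theorem strictContract [Finite k] (p : ℕ) [Fact p.Prime] [Algebra (ZMod p) k]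
    (r : G →* GL (Fin 2) k) (v : Nat.Primes)
    (hscal : ∀ σ ∈ Dl v, ∃ a : k, rm r σ = a • (1 : M2 k)) :
    LocalContractS p r v 0 3 (fun c => ∀ σ ∈ Dl v, c σ = 0) := by
  refine ⟨⊥, inferInstance, ?_, ?_⟩
  · have htop : invOf (Dl v) (adFp p r) = ⊤ := by
      rw [eq_top_iff]
      intro X _ σ hσ
      apply Subtype.ext
      rw [coe_adFp]
      obtain ⟨a, ha⟩ := hscal σ hσ
      have h1 : ad (r σ) (X : M2 k) * rm r σ = (X : M2 k) * rm r σ := by
        rw [C.ad_mul_rm, ha]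
        simp
      have h2 : rm r σ * ((r σ)⁻¹ : GL (Fin 2) k).1 = 1 := by
        rw [rm, ← Units.val_mul, mul_inv_cancel, Units.val_one]
      calc ad (r σ) (X : M2 k) = ad (r σ) (X : M2 k) * (rm r σ * ((r σ)⁻¹ : GL (Fin 2) k).1) := by
            rw [h2, Matrix.mul_one]
        _ = (X : M2 k) * (rm r σ * ((r σ)⁻¹ : GL (Fin 2) k).1) := by
            rw [← Matrix.mul_assoc, h1, Matrix.mul_assoc]
        _ = X := by rw [h2, Matrix.mul_one]
    rw [htop, finrank_top, finrank_bot, finrank_Ad0_Fp p]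
    omega
  · intro z hz
    rw [Submodule.mem_bot, H1.mk_eq_zero_iff, mem_B1_iff z.2]
    refine ⟨0, fun σ hσ => ?_⟩
    apply Subtype.ext
    have := hz σ hσ.2
    rw [inhOf_apply] at this
    rw [this]
    simp

/-- `S56.B.tw_contract` with slack: local contracts `LocalContractS` with slack `sv v` at `v ∈ Smin`;
`Smin` may contain primes at which `ρ` is unramified. -/
theorem tw_contract_slack [Finite k] (p : ℕ) [Fact p.Prime] [Algebra (ZMod p) k] (hp2 : p ≠ 2)
    (hE : G2.EulerStatement p) (hUr : GW.UrBoundStatement p) (hTame : GW.TameBoundStatement p)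
    (ρ : ResidualGaloisRep k) (habs : ρ.IsAbsolutelyIrreducible)
    (hdet : (GaloisRepAdic.ofResidualGaloisRep ρ).DetIsCyclotomic p)
    (hsplit : ∀ σ : G, ∃ α β : k, LinearMap.charpoly (ρ.ρ σ) = (X - C α) * (X - C β))
    (hTW : ∀ (K : Type) [Field K] [Algebra k K] (H : Subgroup G), H.index = 2 →
      ∀ V : Submodule K (ρ.baseChange K).V,
        (∀ σ ∈ H, ∀ x ∈ V, (ρ.baseChange K).ρ σ x ∈ V) → V = ⊥ ∨ V = ⊤)
    (S Smin : Finset ℕ) (hpSmin : p ∈ Smin) (hSmin : Smin ⊆ S)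
    (hunrN : ∀ q : ℕ, q.Prime → q ∉ Smin → ρ.IsUnramifiedAt q)
    (Prv : Nat.Primes → (G → M2 k) → Prop) (sv : Nat.Primes → ℕ)
    (hloc : ∀ v : Nat.Primes, (v : ℕ) ∈ Smin →
      LocalContractS p (T.matRep ρ) v (if (v : ℕ) = p then 1 else 0) (sv v) (Prv v)) :
    ∃ n₀ : ℕ, ∀ n : ℕ, ∃ qv : Fin n₀ → ℕ, Function.Injective qv ∧
      (∀ i, (qv i).Prime ∧ qv i ∉ S ∧ p ^ (n + 1) ∣ qv i - 1) ∧
      (∀ i, ∀ P : ValuationSubring Qbar, P.LiesOverPrime (qv i) →
        ∀ φ : G, P.IsFrobeniusAt φ (qv i) →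
          ∃ α β : k, α ≠ β ∧ LinearMap.charpoly (ρ.ρ φ) = (X - C α) * (X - C β)) ∧
      ∃ T₁ : Finset (G → M2 k),
        T₁.card * Nat.card k ^ (∑ v ∈ toPrimes Smin, sv v) ≤ Nat.card k ^ n₀ ∧
        (∃ t ∈ T₁, IsCob (T.matRep ρ) t) ∧
        ∀ c, IsCoc (T.matRep ρ) c → C.Smooth c → C.TraceZero c →
          (∀ q : ℕ, q.Prime → q ∉ Smin ∪ Finset.univ.image qv → C.UnramAt c q) →
          (∀ v : Nat.Primes, (v : ℕ) ∈ Smin → Prv v c) → ∃ t ∈ T₁, IsCob (T.matRep ρ) (c - t) := by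
  classical
  set r := T.matRep ρ with hrdef
  set f := finrank (ZMod p) k with hf
  have hr : RSmooth r := rSmooth_matRep ρ
  have hdc : DetCyc p r := detCyc_matRep ρ p hdet
  have hur_r : ∀ q : Nat.Primes, q ∉ toPrimes Smin → RUnramAt r q := by
    intro q hq
    rw [mem_toPrimes] at hq
    exact (rUnramAt_matRep_iff ρ q).2 (hunrN q q.2 hq)
  have hpS' : pPrime p ∈ toPrimes Smin := by
    rw [mem_toPrimes]
    exact hpSmin
  -- the local conditions
  let 𝓛 : GW.LocCond (adFp p r) := fun v =>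
    if h : (v : ℕ) ∈ Smin then Classical.choose (hloc v h) else ⊥
  have h𝓛 : ∀ v : Nat.Primes, ∀ h : (v : ℕ) ∈ Smin, 𝓛 v = Classical.choose (hloc v h) := by
    intro v h
    simp only [𝓛, dif_pos h]
  have h𝓛spec : ∀ v : Nat.Primes, (v : ℕ) ∈ Smin → Module.Finite (ZMod p) (𝓛 v) ∧
      finrank (ZMod p) (𝓛 v) + sv v * f ≤ finrank (ZMod p) (invOf (Dl v) (adFp p r)) +
        (if (v : ℕ) = p then 1 else 0) * f ∧
      ∀ z : Z1 Lall (⊤ ⊓ Dl v) (adFp p r), Prv v (inhOf z.1) →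
        H1.mk Lall (⊤ ⊓ Dl v) (adFp p r) z ∈ 𝓛 v := by
    intro v h
    rw [h𝓛 v h]
    exact Classical.choose_spec (hloc v h)
  have hsum : ∑ v ∈ toPrimes Smin, finrank (ZMod p) (𝓛 v) + (∑ v ∈ toPrimes Smin, sv v) * f ≤
      ∑ v ∈ toPrimes Smin, finrank (ZMod p) (invOf (Dl v) (adFp p r)) + f := by
    have h1 : ∑ v ∈ toPrimes Smin, (finrank (ZMod p) (𝓛 v) + sv v * f) ≤
        ∑ v ∈ toPrimes Smin, (finrank (ZMod p) (invOf (Dl v) (adFp p r)) +
          (if (v : ℕ) = p then 1 else 0) * f) :=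
      Finset.sum_le_sum fun v hv => (h𝓛spec v (mem_toPrimes.1 hv)).2.1
    rw [Finset.sum_add_distrib, ← Finset.sum_mul] at h1
    refine h1.trans (le_of_eq ?_)
    rw [Finset.sum_add_distrib]
    congr 1
    rw [Finset.sum_eq_single (pPrime p)]
    · simp
    · intro b _ hb
      have : (b : ℕ) ≠ p := fun h => hb (Subtype.ext h)
      simp [this]
    · intro h
      exact absurd hpS' h
  obtain ⟨n₀, hn₀⟩ := GW_main_slack (ρ := adFp p r) (σ := adDetFp p r) (β := beta p) hp2 hE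
    (toPrimes Smin) (toPrimes S) hpS'
    (isSmoothRep_adFp p r _ hr hur_r) (isSmoothRep_adDetFp p r _ hr hur_r)
    (isPairingOn_beta p r hdc) (beta_bijective p hp2) (beta_flip_bijective p hp2) f
    ((∑ v ∈ toPrimes Smin, sv v) * f)
    (invOf_top_adFp p r hp2 (T.split_matRep ρ hsplit) (T.irr2_matRep ρ habs hTW))
    (finrank_plusPart_add_le p r hp2 hdc) 𝓛
    (fun v hv => (h𝓛spec v (mem_toPrimes.1 hv)).1) hsum
    (fun v hv => hUr (Ad0 k) (adFp p r) (isSmoothRep_adFp_Lall p r hr) v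
      (unramAt_adFp p r (hur_r v hv)))
    (fun n q => IsTW r p S n q)
    (fun n q h => finrank_H1_TW_le p r hp2 hUr hTame hr (hSmin hpSmin)
      (hur_r q fun hq => h.notMem (hSmin (mem_toPrimes.1 hq))) h)
    (fun n T₁ S' _ y hy => tw_supply p ρ hp2 habs hdet hsplit hTW S
      (fun q hq hqS => hunrN q hq fun h => hqS (hSmin h)) n T₁ S' y hy)
  refine ⟨n₀, fun n => ?_⟩
  obtain ⟨Q, hQcard, -, hQ, hfin, hcard⟩ := hn₀ n
  let e : Q ≃ Fin n₀ := Q.equivFinOfCardEq hQcard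
  let qv : Fin n₀ → ℕ := fun i => (((e.symm i : Q) : Nat.Primes) : ℕ)
  have hqvmem : ∀ i, ((e.symm i : Q) : Nat.Primes) ∈ Q := fun i => (e.symm i).2
  have himage : ∀ q : Nat.Primes, (q : ℕ) ∈ Finset.univ.image qv ↔ q ∈ Q := by
    intro q
    rw [Finset.mem_image]
    constructor
    · rintro ⟨i, -, hi⟩
      have : ((e.symm i : Q) : Nat.Primes) = q := Subtype.ext hi
      rw [← this]
      exact hqvmem i
    · intro hq
      exact ⟨e ⟨q, hq⟩, Finset.mem_univ _, by simp [qv]⟩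
  refine ⟨qv, ?_, fun i => ?_, fun i P hP φ hφ => ?_, ?_⟩
  · intro i j hij
    have h1 : ((e.symm i : Q) : Nat.Primes) = ((e.symm j : Q) : Nat.Primes) := Subtype.ext hij
    exact e.symm.injective (Subtype.ext h1)
  · have h := hQ _ (hqvmem i)
    exact ⟨((e.symm i : Q) : Nat.Primes).2, h.notMem, h.dvd⟩
  · obtain ⟨α, β, hαβ, h⟩ := (hQ _ (hqvmem i)).reg P hP φ hφ
    refine ⟨α, β, hαβ, ?_⟩
    rw [← T.charpoly_matRep]
    exact h
  · have hmemS'' : ∀ q : Nat.Primes, q ∉ toPrimes Smin ∪ Q →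
        (q : ℕ) ∉ Smin ∪ Finset.univ.image qv := by
      intro q hq hq'
      apply hq
      rw [Finset.mem_union] at hq' ⊢
      rcases hq' with h | h
      · exact Or.inl (mem_toPrimes.2 h)
      · exact Or.inr ((himage q).1 h)
    obtain ⟨T₁, hT, hT0, hTc⟩ := exists_reps p r (toPrimes Smin ∪ Q) hr
      (fun q hq => hur_r q fun h => hq (Finset.mem_union_left _ h))
      (GW.condQ (toPrimes Smin) 𝓛 Q) hfin _ le_rfl
      (fun c => IsCoc r c ∧ C.Smooth c ∧ C.TraceZero c ∧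
        (∀ q : ℕ, q.Prime → q ∉ Smin ∪ Finset.univ.image qv → C.UnramAt c q) ∧
        (∀ v : Nat.Primes, (v : ℕ) ∈ Smin → Prv v c))
      (fun c hc => ⟨hc.1, hc.2.1, hc.2.2.1, fun q hq => hc.2.2.2.1 q q.2 (hmemS'' q hq)⟩)
      (by
        intro c hc z hz
        rw [GW.mem_Sel]
        intro v hv
        obtain ⟨hz1, he⟩ := locv_mk p r (toPrimes Smin ∪ Q) v z
        rw [he]
        unfold GW.condQ
        split_ifs with h1 h2
        · refine (h𝓛spec v (mem_toPrimes.1 h1)).2.2 ⟨z.1, hz1⟩ ?_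
          show Prv v (inhOf z.1)
          rw [hz]
          exact hc.2.2.2.2 v (mem_toPrimes.1 h1)
        · exact Submodule.mem_top
        · exact absurd hv (by rw [Finset.mem_union]; tauto))
    refine ⟨T₁, ?_, hT0, fun c h1 h2 h3 h4 h5 => hTc c ⟨h1, h2, h3, h4, h5⟩⟩
    refine (Nat.mul_le_mul_right _ hT).trans ?_
    rw [card_eq_pow_finrank (k := k) p, ← pow_mul, ← pow_mul, mul_comm (finrank (ZMod p) k) n₀,
      mul_comm (finrank (ZMod p) k)]
    exact hcard

end Fermat.Agent.S43.GWS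

end
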