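/-
S43 (route TWX), block GWS = steps 3 (and the supply of Taylor-Wiles primes) of report 408.  SORRY-FREE.

`tw_strict`: let `ρ` be a residual representation as in S56 (absolutely irreducible, cyclotomic determinant, split
characteristic polynomials, irreducible on index 2 subgroups), `Sram ∋ p` the set of ramified primes (unipotent inertia at
`q ≠ p`), `Sstr` a set of `t` primes `q ∉ Sram` such that `ρ|D_q` is SCALAR.  Then there is `n₀` (INDEPENDENT OF `n`) with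
`3 t ≤ n₀` such that for every `n` there are `n₀` Taylor-Wiles primes `qv i ≡ 1 mod p ^ (n+1)` outside `S` such that the
Selmer cocycles (flat at `p`, unipotent at `Sram`, STRICT (= zero on `D_q`) at `Sstr`, arbitrary at the `qv i`, unramified
elsewhere) are covered modulo coboundaries by a set `T₁` with `#T₁ ≤ #k ^ (n₀ - 3 t)`.
-/
import Fermat.Agent.S43.GWS.Main
import Fermat.Agent.S56.B.Final
import Fermat.Agent.S56.G2.Final
import Fermat.Agent.S56.F.Main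

set_option autoImplicit false

open Matrix Module ExtCitation Polynomial

noncomputable section

namespace Fermat.Agent.S43.GWS

open Fermat.Agent.S53 (G M2)
open Fermat.Agent.S56
open Fermat.Agent.S56.B
open Fermat.Agent.S56.C (ad rm IsCoc IsCob liftMat)
open Fermat.Agent.PT

variable {k : Type} [Field k]

/-- `c` vanishes on all decomposition groups above `q`. -/
def StrictAt (c : G → M2 k) (q : ℕ) : Prop :=
  ∀ P : ValuationSubring (AlgebraicClosure ℚ), P.LiesOverPrime q →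
    ∀ σ ∈ P.decompositionSubgroup ℚ, c σ = 0

/-- `r` is scalar on all decomposition groups above `q`. -/
def ScalarAt (r : G →* GL (Fin 2) k) (q : ℕ) : Prop :=
  ∀ P : ValuationSubring (AlgebraicClosure ℚ), P.LiesOverPrime q →
    ∀ σ ∈ P.decompositionSubgroup ℚ, ∃ a : k, rm r σ = a • (1 : M2 k)

theorem scalarAt_matRep (ρ : ResidualGaloisRep k) (q : ℕ)
    (h : ∀ P : ValuationSubring (AlgebraicClosure ℚ), P.LiesOverPrime q →
      ∀ σ ∈ P.decompositionSubgroup ℚ, ∃ a : k, ρ.ρ σ = a • (1 : Module.End k ρ.V)) :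
    ScalarAt (T.matRep ρ) q := by
  intro P hP σ hσ
  obtain ⟨a, ha⟩ := h P hP σ hσ
  refine ⟨a, ?_⟩
  rw [rm, T.coe_matRep, ha, map_smul, map_one]

theorem sum_toPrimes_ite (Sram Sstr : Finset ℕ) (hprime : ∀ q ∈ Sstr, q.Prime) :
    ∑ v ∈ toPrimes (Sram ∪ Sstr), (if (v : ℕ) ∈ Sstr then 3 else 0) = 3 * Sstr.card := by
  classical
  rw [← Finset.sum_filter, Finset.sum_const, smul_eq_mul, mul_comm]
  congr 1
  refine Finset.card_bij (fun v _ => (v : ℕ)) ?_ ?_ ?_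
  · intro v hv
    exact (Finset.mem_filter.1 hv).2
  · intro v _ w _ h
    exact Subtype.ext h
  · intro q hq
    exact ⟨⟨q, hprime q hq⟩, Finset.mem_filter.2
      ⟨mem_toPrimes.2 (Finset.mem_union_right _ hq), hq⟩, rfl⟩

/-- **Main theorem of block GWS.** -/
theorem tw_strict [Finite k] (p : ℕ) [Fact p.Prime] [Algebra (ZMod p) k] (hp2 : p ≠ 2)
    (ρ : ResidualGaloisRep k) (habs : ρ.IsAbsolutelyIrreducible)
    (hdet : (GaloisRepAdic.ofResidualGaloisRep ρ).DetIsCyclotomic p)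
    (hsplit : ∀ σ : G, ∃ α β : k, LinearMap.charpoly (ρ.ρ σ) = (X - C α) * (X - C β))
    (hTW : ∀ (K : Type) [Field K] [Algebra k K] (H : Subgroup G), H.index = 2 →
      ∀ V : Submodule K (ρ.baseChange K).V,
        (∀ σ ∈ H, ∀ x ∈ V, (ρ.baseChange K).ρ σ x ∈ V) → V = ⊥ ∨ V = ⊤)
    (S Sram Sstr : Finset ℕ) (hpS : p ∈ Sram) (hSram : Sram ⊆ S) (hSstr : Sstr ⊆ S)
    (hdisj : Disjoint Sram Sstr) (hprime : ∀ q ∈ Sstr, q.Prime)
    (hmin : ∀ q : ℕ, q.Prime → q ≠ p → (q ∈ Sram ↔ ¬ ρ.IsUnramifiedAt q))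
    (hunip : ∀ q ∈ Sram, q.Prime → q ≠ p → ∀ P : ValuationSubring (AlgebraicClosure ℚ),
      P.LiesOverPrime q → ∀ σ ∈ P.inertiaSubgroupIn ℚ,
        (rm (T.matRep ρ) σ).trace = 2 ∧ (rm (T.matRep ρ) σ).det = 1)
    (hscal : ∀ v : Nat.Primes, (v : ℕ) ∈ Sstr →
      ∀ σ ∈ Dl v, ∃ a : k, rm (T.matRep ρ) σ = a • (1 : M2 k)) :
    ∃ n₀ : ℕ, 3 * Sstr.card ≤ n₀ ∧ ∀ n : ℕ, ∃ qv : Fin n₀ → ℕ, Function.Injective qv ∧
      (∀ i, (qv i).Prime ∧ qv i ∉ S ∧ p ^ (n + 1) ∣ qv i - 1) ∧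
      (∀ i, ∀ P : ValuationSubring Qbar, P.LiesOverPrime (qv i) →
        ∀ φ : G, P.IsFrobeniusAt φ (qv i) →
          ∃ α β : k, α ≠ β ∧ LinearMap.charpoly (ρ.ρ φ) = (X - C α) * (X - C β)) ∧
      ∃ T₁ : Finset (G → M2 k), T₁.card ≤ Nat.card k ^ (n₀ - 3 * Sstr.card) ∧
        (∃ t ∈ T₁, IsCob (T.matRep ρ) t) ∧
        ∀ c, IsCoc (T.matRep ρ) c → C.Smooth c → C.TraceZero c →
          (∀ q : ℕ, q.Prime → q ∉ Sram ∪ Sstr ∪ Finset.univ.image qv → C.UnramAt c q) →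
          C.FlatAt (T.matRep ρ) c p →
          (∀ q ∈ Sram, q.Prime → q ≠ p → C.UnipAt (T.matRep ρ) c q) →
          (∀ v : Nat.Primes, (v : ℕ) ∈ Sstr → ∀ σ ∈ Dl v, c σ = 0) →
          ∃ t ∈ T₁, IsCob (T.matRep ρ) (c - t) := by
  classical
  set r := T.matRep ρ with hrdef
  have hrs : RSmooth r := rSmooth_matRep ρ
  have hdc : DetCyc p r := detCyc_matRep ρ p hdet
  have hk1 : 1 < Nat.card k := Finite.one_lt_card
  have hpnot : p ∉ Sstr := fun h => Finset.disjoint_left.1 hdisj hpS h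
  obtain ⟨n₀, h⟩ := tw_contract_slack p hp2 (G2.eulerStatement hp2) (Lq.urBound p) (Lq.tameBound p)
    ρ habs hdet hsplit hTW S (Sram ∪ Sstr) (Finset.mem_union_left _ hpS)
    (Finset.union_subset hSram hSstr)
    (by
      intro q hq hqS
      rw [Finset.mem_union, not_or] at hqS
      have hqp : q ≠ p := fun h => hqS.1 (h ▸ hpS)
      by_contra hcon
      exact hqS.1 ((hmin q hq hqp).2 hcon))
    (fun v c => if (v : ℕ) ∈ Sstr then (∀ σ ∈ Dl v, c σ = 0) else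
      (IsCoc r c ∧ C.Smooth c ∧ C.TraceZero c ∧
        (if (v : ℕ) = p then C.FlatAt r c p else C.UnipAt r c v)))
    (fun v => if (v : ℕ) ∈ Sstr then 3 else 0)
    (by
      intro v hv
      by_cases hvs : (v : ℕ) ∈ Sstr
      · have hvp : (v : ℕ) ≠ p := fun h => hpnot (h ▸ hvs)
        simp only [if_pos hvs, if_neg hvp]
        exact strictContract p r v (hscal v hvs)
      · have hvr : (v : ℕ) ∈ Sram := (Finset.mem_union.1 hv).resolve_right hvs
        simp only [if_neg hvs]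
        apply LocalContractS.of_contract
        by_cases hvp : (v : ℕ) = p
        · have hv' : v = pPrime p := Subtype.ext hvp
          subst hv'
          simp only [pPrime_coe, if_true]
          exact flatContract_of_fun p hp2 F.flat_funContract _ r hrs hdc (T.split_matRep ρ hsplit)
        · simp only [if_neg hvp]
          exact Lq.unipContract hp2 _ r hrs v hvp
            (fun h => (hmin v v.2 hvp).1 hvr ((rUnramAt_matRep_iff ρ v).1 h)) (hunip v hvr v.2 hvp))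
  rw [sum_toPrimes_ite Sram Sstr hprime] at h
  have hle : 3 * Sstr.card ≤ n₀ := by
    obtain ⟨qv, -, -, -, T₁, hT, ⟨t, ht, -⟩, -⟩ := h 0
    have h1 : 1 ≤ T₁.card := Finset.card_pos.2 ⟨t, ht⟩
    have h2 : Nat.card k ^ (3 * Sstr.card) ≤ Nat.card k ^ n₀ :=
      le_trans (Nat.le_mul_of_pos_left _ h1) hT
    exact (Nat.pow_le_pow_iff_right hk1).1 h2
  refine ⟨n₀, hle, fun n => ?_⟩
  obtain ⟨qv, hinj, h1, h2, T₁, hT, hT0, hTc⟩ := h n
  refine ⟨qv, hinj, h1, h2, T₁, ?_, hT0, fun c hc hs ht hu hf hun hst => ?_⟩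
  · have h3 : Nat.card k ^ n₀ = Nat.card k ^ (n₀ - 3 * Sstr.card) * Nat.card k ^ (3 * Sstr.card) := by
      rw [← pow_add, Nat.sub_add_cancel hle]
    rw [h3] at hT
    exact Nat.le_of_mul_le_mul_right hT (pow_pos (by omega) _)
  · refine hTc c hc hs ht hu fun v hv => ?_
    by_cases hvs : (v : ℕ) ∈ Sstr
    · simp only [if_pos hvs]
      exact hst v hvs
    · have hvr : (v : ℕ) ∈ Sram := (Finset.mem_union.1 hv).resolve_right hvs
      simp only [if_neg hvs]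
      refine ⟨hc, hs, ht, ?_⟩
      by_cases hvp : (v : ℕ) = p
      · simp only [if_pos hvp]
        exact hf
      · simp only [if_neg hvp]
        exact hun v hvr v.2 hvp

/-- `tw_strict` with the hypotheses at ALL places above the primes of `Sstr`. -/
theorem tw_strict' [Finite k] (p : ℕ) [Fact p.Prime] [Algebra (ZMod p) k] (hp2 : p ≠ 2)
    (ρ : ResidualGaloisRep k) (habs : ρ.IsAbsolutelyIrreducible)
    (hdet : (GaloisRepAdic.ofResidualGaloisRep ρ).DetIsCyclotomic p)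
    (hsplit : ∀ σ : G, ∃ α β : k, LinearMap.charpoly (ρ.ρ σ) = (X - C α) * (X - C β))
    (hTW : ∀ (K : Type) [Field K] [Algebra k K] (H : Subgroup G), H.index = 2 →
      ∀ V : Submodule K (ρ.baseChange K).V,
        (∀ σ ∈ H, ∀ x ∈ V, (ρ.baseChange K).ρ σ x ∈ V) → V = ⊥ ∨ V = ⊤)
    (S Sram Sstr : Finset ℕ) (hpS : p ∈ Sram) (hSram : Sram ⊆ S) (hSstr : Sstr ⊆ S)
    (hdisj : Disjoint Sram Sstr) (hprime : ∀ q ∈ Sstr, q.Prime)
    (hmin : ∀ q : ℕ, q.Prime → q ≠ p → (q ∈ Sram ↔ ¬ ρ.IsUnramifiedAt q))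
    (hunip : ∀ q ∈ Sram, q.Prime → q ≠ p → ∀ P : ValuationSubring (AlgebraicClosure ℚ),
      P.LiesOverPrime q → ∀ σ ∈ P.inertiaSubgroupIn ℚ,
        (rm (T.matRep ρ) σ).trace = 2 ∧ (rm (T.matRep ρ) σ).det = 1)
    (hscal : ∀ q ∈ Sstr, ScalarAt (T.matRep ρ) q) :
    ∃ n₀ : ℕ, 3 * Sstr.card ≤ n₀ ∧ ∀ n : ℕ, ∃ qv : Fin n₀ → ℕ, Function.Injective qv ∧
      (∀ i, (qv i).Prime ∧ qv i ∉ S ∧ p ^ (n + 1) ∣ qv i - 1) ∧
      (∀ i, ∀ P : ValuationSubring Qbar, P.LiesOverPrime (qv i) →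
        ∀ φ : G, P.IsFrobeniusAt φ (qv i) →
          ∃ α β : k, α ≠ β ∧ LinearMap.charpoly (ρ.ρ φ) = (X - C α) * (X - C β)) ∧
      ∃ T₁ : Finset (G → M2 k), T₁.card ≤ Nat.card k ^ (n₀ - 3 * Sstr.card) ∧
        (∃ t ∈ T₁, IsCob (T.matRep ρ) t) ∧
        ∀ c, IsCoc (T.matRep ρ) c → C.Smooth c → C.TraceZero c →
          (∀ q : ℕ, q.Prime → q ∉ Sram ∪ Sstr ∪ Finset.univ.image qv → C.UnramAt c q) →
          C.FlatAt (T.matRep ρ) c p →
          (∀ q ∈ Sram, q.Prime → q ≠ p → C.UnipAt (T.matRep ρ) c q) →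
          (∀ q ∈ Sstr, StrictAt c q) →
          ∃ t ∈ T₁, IsCob (T.matRep ρ) (c - t) := by
  obtain ⟨n₀, hle, h⟩ := tw_strict p hp2 ρ habs hdet hsplit hTW S Sram Sstr hpS hSram hSstr hdisj
    hprime hmin hunip (fun v hv σ hσ => hscal v hv _ (WB.primeLocalPlace_liesOver v) σ hσ)
  refine ⟨n₀, hle, fun n => ?_⟩
  obtain ⟨qv, hinj, h1, h2, T₁, hT, hT0, hTc⟩ := h n
  exact ⟨qv, hinj, h1, h2, T₁, hT, hT0, fun c hc hs ht hu hf hun hst =>
    hTc c hc hs ht hu hf hun (fun v hv σ hσ => hst v hv _ (WB.primeLocalPlace_liesOver v) σ hσ)⟩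

end Fermat.Agent.S43.GWS

end
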