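/-
S43 (route TWX), block GWS, L2FULL (abstract part): at a prime `v ≠ p` where `r` is ramified and unipotent on inertia and
`χ(d)² ≠ 1` for some `d ∈ D_v`, EVERY cocycle `c : D_v → ad⁰ r` satisfies `tr (c τ r τ) = 0` on inertia, hence
(`S56.Lq.unip_cob`) is a coboundary on inertia.
-/
import Fermat.Agent.S56.Lq.AbsUnipCob

set_option autoImplicit false

open Matrix

namespace Fermat.Agent.S43.GWS

open Fermat.Agent.PT Fermat.Agent.S56.C Fermat.Agent.S56.Lq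
open Fermat.Agent.S53 (M2)

variable {p : ℕ} [Fact p.Prime] {Γ : Type*} [Group Γ]
variable {Λ : LevelSystem Γ} {I : Subgroup Γ} {χ : Γ →* (ZMod p)ˣ} {κ : Γ → ZMod p} {τ₀ : Γ}
variable {k : Type} [Field k] [CharP k p]

theorem trace_conj_nilp {N : M2 k} (hN : N * N = 0) (x : k) (Y : M2 k) :
    ((1 + x • N) * Y * (1 - x • N) * N).trace = (Y * N).trace := by
  have h1 : (1 - x • N) * N = N := by
    rw [sub_mul, one_mul, smul_mul_assoc, hN, smul_zero, sub_zero]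
  have h2 : N * (1 + x • N) = N := by
    rw [mul_add, mul_one, mul_smul_comm, hN, smul_zero, add_zero]
  rw [Matrix.mul_assoc, h1, Matrix.mul_assoc, Matrix.trace_mul_comm, Matrix.mul_assoc, h2]

/-- the first order unipotency condition is automatic. -/
theorem trace_eq_zero_of_tame (h : IsTame Λ I χ κ τ₀) (hn : I.Normal)
    (r : Γ →* GL (Fin 2) k) (hr : Inh.LC1 Λ r)
    (hunip : ∀ τ ∈ I, ((r τ : GL (Fin 2) k) : M2 k).trace = 2 ∧ ((r τ : GL (Fin 2) k) : M2 k).det = 1)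
    (hram : ∃ τ ∈ I, r τ ≠ 1) (c : Γ → M2 k) (hc : ∀ g h, c (g * h) = c g + ad (r g) (c h))
    (hs : Inh.LC1 Λ c) (htr : ∀ g, (c g).trace = 0)
    (d : Γ) (hd : (χ d : ZMod p) * (χ d : ZMod p) ≠ 1) :
    ∀ τ ∈ I, (c τ * ((r τ : GL (Fin 2) k) : M2 k)).trace = 0 := by
  classical
  letI : Algebra (ZMod p) k := ZMod.algebra k p
  obtain ⟨-, hstr⟩ := unip_structure h r hr hunip hram
  obtain ⟨htN, hdN⟩ := trace_det_sub_one (hunip τ₀ h.mem).1 (hunip τ₀ h.mem).2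
  obtain ⟨N₀, hN₀⟩ : ∃ N₀ : M2 k, N₀ = ((r τ₀ : GL (Fin 2) k) : M2 k) - 1 := ⟨_, rfl⟩
  rw [← hN₀] at htN hdN
  simp only [← hN₀] at hstr
  have hNN : N₀ * N₀ = 0 := nilp_sq htN hdN
  have hinv : ∀ σ ∈ I, ∀ Y : M2 k, (ad (r σ) Y * N₀).trace = (Y * N₀).trace := by
    intro σ hσ Y
    rw [AbsUnipCob_ad_eq hNN (r σ) _ (hstr σ hσ) Y, trace_conj_nilp hNN]
  have hc1 : c 1 = 0 := by
    have h1 := hc 1 1
    rw [mul_one, map_one, AbsUnipCob_ad_one] at h1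
    exact left_eq_add.mp h1
  -- the functional
  have hadd : ∀ σ ∈ I, ∀ τ ∈ I, (c (σ * τ) * N₀).trace = (c σ * N₀).trace + (c τ * N₀).trace := by
    intro σ hσ τ _
    rw [hc, add_mul, Matrix.trace_add, hinv σ hσ]
  have hLC : Inh.LC1 Λ (fun g : Γ => (c g * N₀).trace) := by
    obtain ⟨U, hU, hUs⟩ := hs
    exact ⟨U, hU, fun g s hs' => by
      show (c (g * s) * N₀).trace = (c g * N₀).trace
      rw [hUs g s hs']⟩
  have huniv : ∀ τ ∈ I, (c τ * N₀).trace = κ τ • (c τ₀ * N₀).trace := fun τ hτ =>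
    h.univ_vec (fun g : Γ => (c g * N₀).trace) hLC hadd hτ
  have hsm : ∀ (x : ZMod p) (y : k), ((x.val : ℕ) : k) * y = x • y := by
    intro x y
    rw [Algebra.smul_def, ZMod.natCast_val]
    rfl
  -- conjugation by `d`
  have hmem : d * τ₀ * d⁻¹ ∈ I := hn.conj_mem τ₀ h.mem d
  have hmem' : d⁻¹ * τ₀ * d ∈ I := by
    have := hn.conj_mem τ₀ h.mem d⁻¹
    rwa [inv_inv] at this
  have e1 : (c (d * τ₀ * d⁻¹) * N₀).trace = (χ d : ZMod p) • (c τ₀ * N₀).trace := by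
    rw [huniv _ hmem, h.conj d h.mem, h.one, mul_one]
  have hdinv : ad (r d) (c d⁻¹) = - c d := by
    have h1 := hc d d⁻¹
    rw [mul_inv_cancel, hc1] at h1
    exact (neg_eq_of_add_eq_zero_right h1.symm).symm
  have e2 : c (d * τ₀ * d⁻¹) = c d + ad (r d) (c τ₀) - ad (r (d * τ₀ * d⁻¹)) (c d) := by
    have h3 : ad (r (d * τ₀)) (c d⁻¹) = - ad (r (d * τ₀ * d⁻¹)) (c d) := by
      have h4 : r (d * τ₀) = r (d * τ₀ * d⁻¹) * r d := by
        rw [← map_mul, inv_mul_cancel_right]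
      rw [h4, AbsUnipCob_ad_mul, hdinv]
      simp [ad]
    rw [hc (d * τ₀) d⁻¹, hc d τ₀, h3, sub_eq_add_neg]
  have e3 : ((r d⁻¹ : GL (Fin 2) k) : M2 k) * N₀ * ((r d : GL (Fin 2) k) : M2 k)
      = (((κ (d⁻¹ * τ₀ * d)).val : ℕ) : k) • N₀ := by
    have h5 := hstr _ hmem'
    rw [map_mul, map_mul, Units.val_mul, Units.val_mul] at h5
    have h6 : ((r d⁻¹ : GL (Fin 2) k) : M2 k) * ((r d : GL (Fin 2) k) : M2 k) = 1 := by
      rw [← Units.val_mul, ← map_mul, inv_mul_cancel, map_one, Units.val_one]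
    rw [hN₀, mul_sub, sub_mul, mul_one, h6, h5, ← hN₀]
    abel
  have e4 : (ad (r d) (c τ₀) * N₀).trace = (χ d⁻¹ : ZMod p) • (c τ₀ * N₀).trace := by
    have h7 : κ (d⁻¹ * τ₀ * d) = (χ d⁻¹ : ZMod p) := by
      have := h.conj d⁻¹ h.mem
      rwa [inv_inv, h.one, mul_one] at this
    have h8 : ((r d)⁻¹ : GL (Fin 2) k) = r d⁻¹ := (map_inv r d).symm
    rw [ad, h8, Matrix.mul_assoc, Matrix.mul_assoc, Matrix.trace_mul_comm, Matrix.mul_assoc,
      Matrix.mul_assoc, ← Matrix.mul_assoc _ N₀, e3, h7, Matrix.mul_smul, Matrix.trace_smul,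
      smul_eq_mul, hsm]
  have e5 : (χ d : ZMod p) • (c τ₀ * N₀).trace = (χ d⁻¹ : ZMod p) • (c τ₀ * N₀).trace := by
    rw [← e1, e2, sub_mul, add_mul, Matrix.trace_sub, Matrix.trace_add, hinv _ hmem, e4]
    ring
  have h0 : (c τ₀ * N₀).trace = 0 := by
    have h9 : ((χ d : ZMod p) * (χ d : ZMod p) - 1) • (c τ₀ * N₀).trace = 0 := by
      have h10 : (χ d : ZMod p) * (χ d⁻¹ : ZMod p) = 1 := by
        rw [← Units.val_mul, ← map_mul, mul_inv_cancel, map_one, Units.val_one]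
      rw [sub_smul, mul_smul, e5, ← mul_smul, h10, sub_self]
    rcases smul_eq_zero.1 h9 with h11 | h11
    · exact absurd (sub_eq_zero.1 h11) hd
    · exact h11
  intro τ hτ
  rw [hstr τ hτ, mul_add, mul_one, Matrix.trace_add, htr, zero_add, Matrix.mul_smul,
    Matrix.trace_smul, huniv τ hτ, h0, smul_zero, smul_zero]

/-- every cocycle is a coboundary on inertia. -/
theorem full_cob (hp2 : p ≠ 2) (h : IsTame Λ I χ κ τ₀) (hn : I.Normal)
    (r : Γ →* GL (Fin 2) k) (hr : Inh.LC1 Λ r)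
    (hunip : ∀ τ ∈ I, ((r τ : GL (Fin 2) k) : M2 k).trace = 2 ∧ ((r τ : GL (Fin 2) k) : M2 k).det = 1)
    (hram : ∃ τ ∈ I, r τ ≠ 1) (c : Γ → M2 k) (hc : ∀ g h, c (g * h) = c g + ad (r g) (c h))
    (hs : Inh.LC1 Λ c) (htr : ∀ g, (c g).trace = 0)
    (d : Γ) (hd : (χ d : ZMod p) * (χ d : ZMod p) ≠ 1) :
    ∃ X : M2 k, X.trace = 0 ∧ ∀ τ ∈ I, c τ = ad (r τ) X - X :=
  unip_cob hp2 h r hr hunip hram c hc hs htr
    (trace_eq_zero_of_tame h hn r hr hunip hram c hc hs htr d hd)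

end Fermat.Agent.S43.GWS
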