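/-
S43 (route TWX), block GWS, L2FULL: NO local condition at the ramified primes `v ≠ p` with `v² ≢ 1 mod p` (e.g. `v = 2`, `p ≥ 5`).
`fullContract` : `r` ramified at `v`, unipotent on inertia, `v² ≢ 1 mod p`  ⟹  `LocalContract p r v 0 (fun _ => True)`.
`tw_strict_full` : the variant of `tw_strict'` in which nothing is required of the cocycle at the primes of `Sram \ {p}`.
-/
import Fermat.Agent.S43.GWS.FullAbs
import Fermat.Agent.S43.GWS.Contract

set_option autoImplicit false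

open Matrix Module ExtCitation Polynomial

noncomputable section

namespace Fermat.Agent.S43.GWS

open Fermat.Agent.S53 (G M2)
open Fermat.Agent.S56
open Fermat.Agent.S56.B
open Fermat.Agent.S56.Lq
open Fermat.Agent.S56.C (ad rm IsCoc IsCob liftMat)
open Fermat.Agent.PT

variable {p : ℕ} [Fact p.Prime] {k : Type} [Field k] [Algebra (ZMod p) k]

/-- `v ≠ p`, `r` unipotent on the inertia group at `primeLocalPlace v` and ramified there, `v² ≢ 1 mod p`.  Then every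
cocycle of `D_v` with values in `ad⁰ r` is unramified. -/
theorem mk_mem_Lur_of_ram (hp2 : p ≠ 2) (r : G →* GL (Fin 2) k) (hr : RSmooth r) (v : Nat.Primes)
    (hv : v ≠ pPrime p)
    (hunip : ∀ τ ∈ Ine (primeLocalPlace v), (rm r τ).trace = 2 ∧ (rm r τ).det = 1)
    (hram : ∃ τ ∈ Ine (primeLocalPlace v), r τ ≠ 1)
    (hv2 : (((v : ℕ) : ZMod p)) * (((v : ℕ) : ZMod p)) ≠ 1) (z : Z1 Lall (Dv v) (adFp p r)) :
    H1.mk Lall (Dv v) (adFp p r) z ∈ GW.Lur (adFp p r) v := by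
  have : CharP k p := charP_of_injective_algebraMap (algebraMap (ZMod p) k).injective p
  have hℓ : (plcV v).ℓ ≠ p := fun h => hv (Subtype.ext h)
  have hvp : (v : ℕ) ≠ p := fun h => hv (Subtype.ext h)
  have hle : (plcV v).ine ≤ Dv v := by
    rw [Dv_eq]
    exact Local.ine_le_dec _
  obtain ⟨κ, τ₀, hT⟩ := exists_isTame (p := p) (plcV v) hℓ (Dv v) (Dv_eq v)
  obtain ⟨φ', hφ'⟩ := exists_isFrobGen (plcV v) (Dv v) (Dv_eq v)
  obtain ⟨φ, hφD, hφ⟩ := exists_frob_Dl v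
  have hχ := cycloChar_frob p hvp (WB.primeLocalPlace_liesOver v) hφ
  obtain ⟨X, hX, hXe⟩ := full_cob hp2 hT hφ'.normal (r.comp (Dv v).subtype) (lc1_comp_subtype hr _)
    (fun τ hτ => hunip τ hτ)
    (by
      obtain ⟨τ, hτ, h1⟩ := hram
      exact ⟨⟨τ, hle hτ⟩, hτ, h1⟩)
    (fun d => inhOf z.1 d)
    (fun g h => by
      have h1 := congrArg Subtype.val (inh1_cocycle z.2 g g.2 h)
      simp only [Submodule.coe_add, coe_adFp] at h1
      show ((z.1 1 ((g * h : Dv v) : GQ) : Ad0 k) : M2 k) = _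
      rw [Subgroup.coe_mul, h1, add_comm]
      rfl)
    (by
      obtain ⟨U, hU, h⟩ := dictV_LC1 (inh1_smoothOn z.2.1)
      exact ⟨U, hU, fun g s hs => congrArg Subtype.val (h g s hs)⟩)
    (fun g => mem_Ad0.1 (z.1 1 g).2)
    ⟨φ, Subgroup.mem_top _, hφD⟩
    (by
      show ((cycloChar p φ : (ZMod p)ˣ) : ZMod p) * ((cycloChar p φ : (ZMod p)ˣ) : ZMod p) ≠ 1
      rw [hχ]
      exact hv2)
  rw [Lq.mk_mem_Lur_iff]
  refine ⟨⟨X, mem_Ad0.2 hX⟩, fun τ hτ => Subtype.ext ?_⟩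
  exact hXe ⟨τ, hle hτ⟩ hτ

/-- **(L2FULL)** no local condition at `v`. -/
theorem fullContract [Finite k] (hp2 : p ≠ 2) (r : G →* GL (Fin 2) k) (hr : RSmooth r)
    (v : Nat.Primes) (hv : (v : ℕ) ≠ p) (hram : ¬ RUnramAt r v)
    (hunip : ∀ P : ValuationSubring Qbar, P.LiesOverPrime (v : ℕ) → ∀ σ ∈ P.inertiaSubgroupIn ℚ,
        (rm r σ).trace = 2 ∧ (rm r σ).det = 1)
    (hv2 : (((v : ℕ) : ZMod p)) * (((v : ℕ) : ZMod p)) ≠ 1) :
    LocalContract p r v 0 (fun _ => True) := by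
  have hv' : v ≠ pPrime p := fun h => hv (by rw [h]; rfl)
  obtain ⟨h1, h2⟩ := Lq.finrank_Lur (adFp p r) (isSmoothRep_adFp_Lall p r hr) v
  refine ⟨GW.Lur (adFp p r) v, h1, by rw [h2]; omega, fun z _ => ?_⟩
  have hP := WB.primeLocalPlace_liesOver v
  exact mk_mem_Lur_of_ram hp2 r hr v hv' (fun τ hτ => hunip _ hP τ hτ)
    (exists_ram_of_not_unram hram) hv2 z

/-- **Main theorem of block GWS, final form**: flat at `p`, NO condition at the other ramified primes, strict at `Sstr`. -/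
theorem tw_strict_full [Finite k] (p : ℕ) [Fact p.Prime] [Algebra (ZMod p) k] (hp2 : p ≠ 2)
    (ρ : ResidualGaloisRep k) (habs : ρ.IsAbsolutelyIrreducible)
    (hdet : (GaloisRepAdic.ofResidualGaloisRep ρ).DetIsCyclotomic p)
    (hsplit : ∀ σ : G, ∃ α β : k, LinearMap.charpoly (ρ.ρ σ) = (X - C α) * (X - C β))
    (hTW : ∀ (K : Type) [Field K] [Algebra k K] (H : Subgroup G), H.index = 2 →
      ∀ V : Submodule K (ρ.baseChange K).V,
        (∀ σ ∈ H, ∀ x ∈ V, (ρ.baseChange K).ρ σ x ∈ V) → V = ⊥ ∨ V = ⊤)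
    (S Sram Sstr : Finset ℕ) (hpS : p ∈ Sram) (hSram : Sram ⊆ S) (hSstr : Sstr ⊆ S)
    (hdisj : Disjoint Sram Sstr) (hprime : ∀ q ∈ Sstr, q.Prime)
    (hmin : ∀ q : ℕ, q.Prime → q ≠ p → (q ∈ Sram ↔ ¬ ρ.IsUnramifiedAt q))
    (hunip : ∀ q ∈ Sram, q.Prime → q ≠ p → ∀ P : ValuationSubring (AlgebraicClosure ℚ),
      P.LiesOverPrime q → ∀ σ ∈ P.inertiaSubgroupIn ℚ,
        (rm (T.matRep ρ) σ).trace = 2 ∧ (rm (T.matRep ρ) σ).det = 1)
    (hsq : ∀ q ∈ Sram, q.Prime → q ≠ p → ((q : ZMod p)) * ((q : ZMod p)) ≠ 1)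
    (hscal : ∀ q ∈ Sstr, ScalarAt (T.matRep ρ) q) :
    ∃ n₀ : ℕ, 3 * Sstr.card ≤ n₀ ∧ ∀ n : ℕ, ∃ qv : Fin n₀ → ℕ, Function.Injective qv ∧
      (∀ i, (qv i).Prime ∧ qv i ∉ S ∧ p ^ (n + 1) ∣ qv i - 1) ∧
      (∀ i, ∀ P : ValuationSubring Qbar, P.LiesOverPrime (qv i) →
        ∀ φ : G, P.IsFrobeniusAt φ (qv i) →
          ∃ α β : k, α ≠ β ∧ LinearMap.charpoly (ρ.ρ φ) = (X - C α) * (X - C β)) ∧
      ∃ T₁ : Finset (G → M2 k), T₁.card ≤ Nat.card k ^ (n₀ - 3 * Sstr.card) ∧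
        (∃ t ∈ T₁, IsCob (T.matRep ρ) t) ∧
        ∀ c, IsCoc (T.matRep ρ) c → C.Smooth c → C.TraceZero c →
          (∀ q : ℕ, q.Prime → q ∉ Sram ∪ Sstr ∪ Finset.univ.image qv → C.UnramAt c q) →
          C.FlatAt (T.matRep ρ) c p →
          (∀ q ∈ Sstr, StrictAt c q) →
          ∃ t ∈ T₁, IsCob (T.matRep ρ) (c - t) := by
  classical
  set r := T.matRep ρ with hrdef
  have hrs : RSmooth r := rSmooth_matRep ρ
  have hdc : DetCyc p r := detCyc_matRep ρ p hdet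
  have hk1 : 1 < Nat.card k := Finite.one_lt_card
  have hpnot : p ∉ Sstr := fun h => Finset.disjoint_left.1 hdisj hpS h
  obtain ⟨n₀, h⟩ := tw_contract_slack p hp2 (G2.eulerStatement hp2) (Lq.urBound p) (Lq.tameBound p)
    ρ habs hdet hsplit hTW S (Sram ∪ Sstr) (Finset.mem_union_left _ hpS)
    (Finset.union_subset hSram hSstr)
    (by
      intro q hq hqS
      rw [Finset.mem_union, not_or] at hqS
      have hqp : q ≠ p := fun h => hqS.1 (h ▸ hpS)
      by_contra hcon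
      exact hqS.1 ((hmin q hq hqp).2 hcon))
    (fun v c => if (v : ℕ) ∈ Sstr then (∀ σ ∈ Dl v, c σ = 0) else
      (if (v : ℕ) = p then (IsCoc r c ∧ C.Smooth c ∧ C.TraceZero c ∧ C.FlatAt r c p) else True))
    (fun v => if (v : ℕ) ∈ Sstr then 3 else 0)
    (by
      intro v hv
      by_cases hvs : (v : ℕ) ∈ Sstr
      · have hvp : (v : ℕ) ≠ p := fun h => hpnot (h ▸ hvs)
        simp only [if_pos hvs, if_neg hvp]
        exact strictContract p r v
          (fun σ hσ => hscal v hvs _ (WB.primeLocalPlace_liesOver v) σ hσ)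
      · have hvr : (v : ℕ) ∈ Sram := (Finset.mem_union.1 hv).resolve_right hvs
        simp only [if_neg hvs]
        apply LocalContractS.of_contract
        by_cases hvp : (v : ℕ) = p
        · have hv' : v = pPrime p := Subtype.ext hvp
          subst hv'
          simp only [pPrime_coe, if_true]
          exact flatContract_of_fun p hp2 F.flat_funContract _ r hrs hdc (T.split_matRep ρ hsplit)
        · simp only [if_neg hvp]
          exact fullContract hp2 r hrs v hvp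
            (fun h => (hmin v v.2 hvp).1 hvr ((rUnramAt_matRep_iff ρ v).1 h)) (hunip v hvr v.2 hvp)
            (hsq v hvr v.2 hvp))
  rw [sum_toPrimes_ite Sram Sstr hprime] at h
  have hle : 3 * Sstr.card ≤ n₀ := by
    obtain ⟨qv, -, -, -, T₁, hT, ⟨t, ht, -⟩, -⟩ := h 0
    have h1 : 1 ≤ T₁.card := Finset.card_pos.2 ⟨t, ht⟩
    have h2 : Nat.card k ^ (3 * Sstr.card) ≤ Nat.card k ^ n₀ :=
      le_trans (Nat.le_mul_of_pos_left _ h1) hT
    exact (Nat.pow_le_pow_iff_right hk1).1 h2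
  refine ⟨n₀, hle, fun n => ?_⟩
  obtain ⟨qv, hinj, h1, h2, T₁, hT, hT0, hTc⟩ := h n
  refine ⟨qv, hinj, h1, h2, T₁, ?_, hT0, fun c hc hs ht hu hf hst => ?_⟩
  · have h3 : Nat.card k ^ n₀ = Nat.card k ^ (n₀ - 3 * Sstr.card) * Nat.card k ^ (3 * Sstr.card) := by
      rw [← pow_add, Nat.sub_add_cancel hle]
    rw [h3] at hT
    exact Nat.le_of_mul_le_mul_right hT (pow_pos (by omega) _)
  · refine hTc c hc hs ht hu fun v hv => ?_
    by_cases hvs : (v : ℕ) ∈ Sstr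
    · simp only [if_pos hvs]
      exact fun σ hσ => hst v hvs _ (WB.primeLocalPlace_liesOver v) σ hσ
    · simp only [if_neg hvs]
      by_cases hvp : (v : ℕ) = p
      · simp only [if_pos hvp]
        exact ⟨hc, hs, ht, hf⟩
      · simp only [if_neg hvp]

end Fermat.Agent.S43.GWS

end
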